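import Fermat.Agent.LT.ClassBound.Main
import Fermat.Agent.LT.Deform.Obstruction
import Fermat.Agent.LT.Selmer.Defs
import Fermat.Agent.CFT.Flat.Norm
import Fermat.Agent.CFT.Local.Global
import Fermat.Agent.Arith.Chebotarev.Crossing

/-!
# The residual representation on the fixing group of `ℚ(√-d)`
-/

set_option autoImplicit false

noncomputable section

namespace Fermat.Agent.LT.Glue

open Matrix NumberField Fermat.Agent.Arith Fermat.Agent.Arith.Density Fermat.Agent.Arith.Chebotarev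
open Fermat.Agent.LT.ClassBound Fermat.Agent.LT.Deform
open Fermat.Agent.CFT.Flat (inG)
open scoped Pointwise

/-- The label of an element of the centraliser of `w₀`. -/
def cmap (x : M2 (ZMod 2)) : Multiplicative (ZMod 3) :=
  if x = 1 then 1 else if x = w₀ then Multiplicative.ofAdd 1 else Multiplicative.ofAdd 2

theorem centralizer_w₀ : ∀ x : M2 (ZMod 2), x * w₀ = w₀ * x →
    x = 0 ∨ x = 1 ∨ x = w₀ ∨ x = w₀ + 1 := by decide

theorem trace_of_noncomm : ∀ x y : M2 (ZMod 2), x * y = 1 → x * w₀ * y = w₀ + 1 → x.trace = 0 := by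
  decide

theorem cmap_eq_one : ∀ x : M2 (ZMod 2), x * w₀ = w₀ * x → x ≠ 0 →
    (cmap x = 1 ↔ x = 1) ∧ (x.trace = if x = 1 then 0 else 1) := by decide

theorem cmap_mul {x y : M2 (ZMod 2)} (hx : x * w₀ = w₀ * x) (hy : y * w₀ = w₀ * y) (hx0 : x ≠ 0)
    (hy0 : y ≠ 0) : cmap (x * y) = cmap x * cmap y := by
  rcases centralizer_w₀ x hx with rfl | rfl | rfl | rfl <;>
    rcases centralizer_w₀ y hy with rfl | rfl | rfl | rfl <;>
    first
      | exact absurd rfl hx0
      | exact absurd rfl hy0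
      | decide

variable {d : ℕ} {r : GQ →* (M2 (ZMod 2))ˣ} {η : GQ → ZMod 2}

/-- The hypotheses on the residual representation. -/
structure ResInput (d : ℕ) (r : GQ →* (M2 (ZMod 2))ˣ) (η : GQ → ZMod 2) : Prop where
  /-- `d` is squarefree. -/
  squarefree : Squarefree d
  /-- `d` is `2` modulo `4`. -/
  mod_four : d % 4 = 2
  /-- `r` has finite level. -/
  locConst : Selmer.LocConst r
  /-- `r` is onto `GL₂(𝔽₂)`. -/
  surjective : Function.Surjective r
  /-- `r` fixes or inverts the element of order three according to `η`. -/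
  sign : ∀ g, conjAct r g w₀ = w₀ + η g • 1
  /-- `η` cuts out `ℚ(√-d)`. -/
  kernel : ∀ g, η g = 0 ↔ g ∈ (Kd d).fixingSubgroup
  /-- `r` is unramified on the kernel of `η`. -/
  inertia : ∀ v : ℕ, ∀ [Fact v.Prime], ∀ h ∈ inG v, η h = 0 → r h = 1

/-- Where `η` vanishes, `r` commutes with the element of order three. -/
theorem ResInput.comm (h : ResInput d r η) {g : GQ} (hg : η g = 0) :
    (r g : M2 (ZMod 2)) * w₀ = w₀ * r g := by
  have e := h.sign g
  rw [hg, zero_smul, add_zero] at e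
  calc (r g : M2 (ZMod 2)) * w₀ = (r g : M2 (ZMod 2)) * w₀ * ↑(r g)⁻¹ * r g := by
        rw [mul_assoc _ (↑(r g)⁻¹ : M2 (ZMod 2)), Units.inv_mul, mul_one]
    _ = w₀ * r g := by rw [show (r g : M2 (ZMod 2)) * w₀ * ↑(r g)⁻¹ = w₀ from e]

/-- The character on the fixing group. -/
def ResInput.psi (h : ResInput d r η) : (Kd d).fixingSubgroup →* Multiplicative (ZMod 3) where
  toFun σ := cmap (r σ.1 : M2 (ZMod 2))
  map_one' := by rw [Subgroup.coe_one, map_one, Units.val_one]; exact if_pos rfl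
  map_mul' σ τ := by
    rw [Subgroup.coe_mul, map_mul, Units.val_mul]
    exact cmap_mul (h.comm ((h.kernel _).mpr σ.2)) (h.comm ((h.kernel _).mpr τ.2))
      (Units.ne_zero _) (Units.ne_zero _)

theorem ResInput.psi_eq_one_iff (h : ResInput d r η) (σ : (Kd d).fixingSubgroup) :
    h.psi σ = 1 ↔ r σ.1 = 1 := by
  rw [show h.psi σ = cmap (r σ.1 : M2 (ZMod 2)) from rfl,
    (cmap_eq_one _ (h.comm ((h.kernel _).mpr σ.2)) (Units.ne_zero _)).1, Units.val_eq_one]

theorem ResInput.trace_eq (h : ResInput d r η) {g : GQ} (hg : g ∈ (Kd d).fixingSubgroup) :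
    (r g : M2 (ZMod 2)).trace = if h.psi ⟨g, hg⟩ = 1 then 0 else 1 := by
  rw [(cmap_eq_one _ (h.comm ((h.kernel _).mpr hg)) (Units.ne_zero _)).2]
  exact if_congr ((cmap_eq_one _ (h.comm ((h.kernel _).mpr hg)) (Units.ne_zero _)).1.symm) rfl rfl

theorem ResInput.trace_of_notMem (h : ResInput d r η) {g : GQ}
    (hg : g ∉ (Kd d).fixingSubgroup) : (r g : M2 (ZMod 2)).trace = 0 := by
  have h1 : η g = 1 := ((by decide : ∀ z : ZMod 2, z = 0 ∨ z = 1) (η g)).resolve_left
    fun e => hg ((h.kernel g).mp e)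
  have e := h.sign g
  rw [h1, one_smul] at e
  exact trace_of_noncomm _ ↑(r g)⁻¹ (r g).mul_inv e

/-- A place over a prime is a translate of the chosen one. -/
theorem exists_eq_smul_padicPlace {q : ℕ} [hq : Fact q.Prime] {B : ValuationSubring QBar}
    (hB : B.LiesOverPrime q) : ∃ g : GQ, g • padicPlace q = B :=
  exists_smul_eq (Fermat.Agent.CFT.Local.padicPlace_liesOverPrime q) hB hq.out

/-- A homomorphism killing the inertia groups at the chosen places kills all of them. -/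
theorem eq_one_of_inertia {X : Type*} [Group X] {f : GQ →* X}
    (hη : ∀ g, η g = 0 ↔ g ∈ (Kd d).fixingSubgroup)
    (hf : ∀ v : ℕ, ∀ [Fact v.Prime], ∀ h ∈ inG v, η h = 0 → f h = 1)
    {q : ℕ} (hq : q.Prime) {B : ValuationSubring QBar} (hB : B.LiesOverPrime q) {σ : GQ}
    (hσ : σ ∈ B.inertiaSubgroupIn ℚ) (hσK : σ ∈ (Kd d).fixingSubgroup) : f σ = 1 := by
  have : Fact q.Prime := ⟨hq⟩
  obtain ⟨g, rfl⟩ := exists_eq_smul_padicPlace hB
  have hin : g⁻¹ * σ * g ∈ inG q :=
    (mem_inertia_smul_iff (g := g)).mp (by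
      rw [show g * (g⁻¹ * σ * g) * g⁻¹ = σ by group]; exact hσ)
  have : (Kd d).fixingSubgroup.Normal := by
    exact (@IntermediateField.restrictNormalHom_ker ℚ QBar _ _ _ (Kd d) (normal_Kd d)) ▸
      inferInstance
  have hmem : g⁻¹ * σ * g ∈ (Kd d).fixingSubgroup := by
    simpa using Subgroup.Normal.conj_mem inferInstance σ hσK g⁻¹
  have h1 := hf q _ hin ((hη _).mpr hmem)
  rw [map_mul, map_mul, map_inv] at h1
  have h2 := congrArg (fun x => f g * x * (f g)⁻¹) h1
  simpa [mul_assoc] using h2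

/-- The cubic character on the fixing group of `ℚ(√-d)` is unramified. -/
theorem ResInput.unram (h : ResInput d r η) : Unram (Kd d) h.psi := fun _ hq _ hB σ hσ => by
  rw [h.psi_eq_one_iff]
  exact eq_one_of_inertia h.kernel h.inertia hq hB hσ σ.2

/-- The cubic character on the fixing group of `ℚ(√-d)` factors through a finite level. -/
theorem ResInput.level (h : ResInput d r η) : Level (Kd d) h.psi := by
  obtain ⟨L, hL, h1⟩ := h.locConst
  refine ⟨L, hL, fun σ hσ => (h.psi_eq_one_iff σ).mpr ?_⟩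
  rw [← map_one r]
  exact h1 _ _ hσ

theorem ResInput.psi_surjective (h : ResInput d r η) : Function.Surjective h.psi := by
  intro a
  obtain ⟨x, hx1, hx2, hx3⟩ : ∃ x : M2 (ZMod 2), x * w₀ = w₀ * x ∧ x * x * x = 1 ∧ cmap x = a := by
    revert a; decide
  have hu : IsUnit x := IsUnit.of_mul_eq_one (x * x) (by rw [← mul_assoc]; exact hx2)
  obtain ⟨g, hg⟩ := h.surjective hu.unit
  have hgx : (r g : M2 (ZMod 2)) = x := by rw [hg]; rfl
  have hη : η g = 0 := by
    have e := h.sign g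
    rw [conjAct, hgx, hx1, mul_assoc, ← hgx, Units.mul_inv, mul_one] at e
    rcases ((by decide : ∀ z : ZMod 2, z = 0 ∨ z = 1)) (η g) with h0 | h0
    · exact h0
    · rw [h0, one_smul] at e
      exact absurd (left_eq_add.mp e) one_ne_zero
  exact ⟨⟨g, (h.kernel g).mp hη⟩, by
    show cmap (r g : M2 (ZMod 2)) = a
    rw [hgx, hx3]⟩

theorem ResInput.card_range (h : ResInput d r η) : Nat.card h.psi.range = 3 := by
  rw [MonoidHom.range_eq_top.mpr h.psi_surjective, Subgroup.card_top, Nat.card_eq_fintype_card]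
  rfl

/-- A Frobenius fixing `ℚ(√-d)` gives a prime of degree one. -/
theorem exists_prime_of_frobenius {ℓ : ℕ} (hℓ : ℓ.Prime) (hgood : Good (Kd d) ℓ)
    {B : ValuationSubring QBar} (hB : B.LiesOverPrime ℓ) {F : GQ} (hF : B.IsFrobeniusAt F ℓ)
    (hFK : F ∈ (Kd d).fixingSubgroup) : ∃ P : PrimeId (Kd d), Ideal.absNorm P.1 = ℓ := by
  have hfix : (F : QBar →ₐ[ℚ] QBar).comp (valQ (Kd d)) = valQ (Kd d) := comp_valQ_of_mem hFK
  have h1 := card_fixed_embeddings (K := Kd d) hB hℓ hgood hF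
  have hpos : 0 < Nat.card {f : Kd d →ₐ[ℚ] QBar // (F : QBar →ₐ[ℚ] QBar).comp f = f} := by
    have : Nonempty {f : Kd d →ₐ[ℚ] QBar // (F : QBar →ₐ[ℚ] QBar).comp f = f} := ⟨⟨_, hfix⟩⟩
    exact Nat.card_pos
  rw [h1] at hpos
  obtain ⟨P⟩ := (Nat.card_pos_iff.mp hpos).1
  exact ⟨P.1, P.2⟩

/-- The trace at a Frobenius, compared with the one at a prime of degree one. -/
theorem ResInput.trace_frobenius (h : ResInput d r η) {ℓ : ℕ} (hgood : Good (Kd d) ℓ)
    {P : PrimeId (Kd d)} (hP : Ideal.absNorm P.1 = ℓ) (hℓ : ℓ.Prime) {B : ValuationSubring QBar}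
    (hB : B.LiesOverPrime ℓ) {F : GQ} (hF : B.IsFrobeniusAt F ℓ) :
    (r F : M2 (ZMod 2)).trace = if h.psi (fr (Kd d) P) = 1 then 0 else 1 := by
  subst hP
  obtain ⟨A, hA, hPA, hσ⟩ := fr_spec hℓ hgood
  obtain ⟨g, rfl⟩ := exists_smul_eq hA hB hℓ
  set σ : GQ := (fr (Kd d) P : GQ)
  have h1 := inv_mul_mem_inertia hF (isFrobeniusAt_conj (g := g) hσ)
  have hK : (g * σ * g⁻¹)⁻¹ * F ∈ (Kd d).fixingSubgroup := by
    have : IsGalois ℚ (Kd d) := ⟨⟩
    rw [← @IntermediateField.restrictNormalHom_ker ℚ QBar _ _ _ (Kd d) (normal_Kd d),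
      MonoidHom.mem_ker]
    exact inertia_fixes_of_good (Kd d) hℓ hgood (liesOverPrime_smul_iff.mpr hA) h1
  have h2 := eq_one_of_inertia h.kernel h.inertia hℓ (liesOverPrime_smul_iff.mpr hA) h1 hK
  rw [map_mul, map_inv, inv_mul_eq_one, map_mul, map_mul, map_inv] at h2
  rw [← h2, Units.val_mul, Units.val_mul, Matrix.trace_mul_cycle, Units.inv_mul, one_mul]
  exact h.trace_eq (fr (Kd d) P).2

end Fermat.Agent.LT.Glue
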