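import Fermat.Agent.LT.Glue.Ring
import Fermat.Agent.LT.Glue.Residual
import Fermat.Agent.LT.Quat.ChiSum

/-!
# The homomorphism to the group ring, and the bound on the two part

For a surjective residual representation modulo `2` whose sign cuts out `ℚ(√-d)` (`ResInput`):
`ResInput.exists_pi` gives for every quaternionic level a homomorphism of the Hecke ring to
`F₄[C]`, `C` the two part of the class group of `ℚ(√-d)`, congruent to the residual traces.
`ResInput.bound`: an abelian extension of `ℚ(√-d)`, unramified and of two power degree over the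
residual one, has degree at most `3 #C`. Both are used in `LT/Compose/Main`.
-/

set_option autoImplicit false

noncomputable section

namespace Fermat.Agent.LT.Glue

open Matrix NumberField Fermat.Agent.Arith Fermat.Agent.Arith.Density
open Fermat.Agent.LT.ClassBound Fermat.Agent.LT.Deform
open Fermat.Agent.CFT.Flat (inG)

variable {d : ℕ}

theorem negligible_bad (n : ℕ) (hn : n ≠ 0) :
    Negligible ({ℓ : ℕ | ℓ.Prime ∧ ¬ Good (Kd d) ℓ} ∪ {ℓ | ℓ ∣ n}) := by
  obtain ⟨B, hB⟩ := exists_bound_good (K := Kd d)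
  refine negligible_finite (((Set.finite_le_nat B).subset fun ℓ hℓ => ?_).union
    ((Set.finite_le_nat n).subset fun ℓ hℓ => Nat.le_of_dvd (Nat.pos_of_ne_zero hn) hℓ))
  by_contra h
  exact hℓ.2 (hB ℓ hℓ.1 (not_le.mp h))

/-- The powers of `ω` as a character of `ℤ/3`. -/
def omgHom (d : ℕ) : Multiplicative (ZMod 3) →* Lam d where
  toFun a := if a = 1 then 1 else if a = Multiplicative.ofAdd 1 then omg d else omg d * omg d
  map_one' := if_pos rfl
  map_mul' a b := by
    have h3 : omg d * omg d * omg d = 1 := by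
      linear_combination (omg d - 1) * omg_rel d
    have hc : ∀ a : Multiplicative (ZMod 3), a = 1 ∨ a = Multiplicative.ofAdd 1 ∨
        a = Multiplicative.ofAdd 2 := by decide
    have e1 : (Multiplicative.ofAdd (1 : ZMod 3) ≠ 1) := by decide
    have e2 : (Multiplicative.ofAdd (2 : ZMod 3) ≠ 1) := by decide
    have e3 : (Multiplicative.ofAdd (2 : ZMod 3) ≠ Multiplicative.ofAdd 1) := by decide
    have m11 : Multiplicative.ofAdd (1 : ZMod 3) * Multiplicative.ofAdd 1 =
        Multiplicative.ofAdd 2 := by decide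
    have m12 : Multiplicative.ofAdd (1 : ZMod 3) * Multiplicative.ofAdd 2 = 1 := by decide
    have m22 : Multiplicative.ofAdd (2 : ZMod 3) * Multiplicative.ofAdd 2 =
        Multiplicative.ofAdd 1 := by decide
    have m21 : Multiplicative.ofAdd (2 : ZMod 3) * Multiplicative.ofAdd 1 = 1 := by decide
    rcases hc a with rfl | rfl | rfl <;> rcases hc b with rfl | rfl | rfl <;>
      simp only [one_mul, mul_one, e1, e2, e3, m11, m12, m22, m21, if_true, if_false]
    · linear_combination -h3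
    · linear_combination -h3
    · linear_combination -omg d * h3

theorem omgHom_one' : omgHom d (Multiplicative.ofAdd 1) = omg d := by
  simp only [omgHom, MonoidHom.coe_mk, OneHom.coe_mk]
  rw [if_neg (by decide)]; exact if_pos trivial

theorem omgHom_two' : omgHom d (Multiplicative.ofAdd 2) = omg d * omg d := by
  simp only [omgHom, MonoidHom.coe_mk, OneHom.coe_mk]
  rw [if_neg (by decide), if_neg (by decide)]

theorem pow_three_of_comm :
    ∀ x : M2 (ZMod 2), x * w₀ = w₀ * x → x ≠ 0 → x ^ 3 = 1 := by decide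

/-- The character `ω ^ χ e`. -/
def chiLam (χ : ClassGroup (𝓞 (Kd d)) →* Multiplicative (ZMod 3)) :
    ClassGroup (𝓞 (Kd d)) →* Lam d :=
  ((omgHom d).comp χ) * ((Units.coeHom (Lam d)).comp ((eHom d).comp (proj2 d)))

theorem chiLam_apply (χ : ClassGroup (𝓞 (Kd d)) →* Multiplicative (ZMod 3))
    (C : ClassGroup (𝓞 (Kd d))) :
    chiLam χ C = omgHom d (χ C) * (eHom d (proj2 d C) : Lam d) := rfl

theorem add_eq_of_ne (χ : ClassGroup (𝓞 (Kd d)) →* Multiplicative (ZMod 3))
    {C : ClassGroup (𝓞 (Kd d))} (h : χ C ≠ 1) :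
    chiLam χ C + chiLam χ C⁻¹ =
        omg d * (eHom d (proj2 d C) : Lam d) + omg d * omg d * (eHom d (proj2 d C)⁻¹ : Lam d) ∨
      chiLam χ C + chiLam χ C⁻¹ =
        omg d * (eHom d (proj2 d C)⁻¹ : Lam d) + omg d * omg d * (eHom d (proj2 d C) : Lam d) := by
  have hc : ∀ a : Multiplicative (ZMod 3), a ≠ 1 → (a = Multiplicative.ofAdd 1 ∧
      a⁻¹ = Multiplicative.ofAdd 2) ∨
          (a = Multiplicative.ofAdd 2 ∧ a⁻¹ = Multiplicative.ofAdd 1) := by
    decide
  rcases hc _ h with ⟨h1, h2⟩ | ⟨h1, h2⟩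
  · refine Or.inl ?_
    rw [chiLam_apply, chiLam_apply, map_inv χ, map_inv (proj2 d), h2, h1, omgHom_one', omgHom_two']
  · refine Or.inr ?_
    rw [chiLam_apply, chiLam_apply, map_inv χ, map_inv (proj2 d), h2, h1, omgHom_one', omgHom_two',
      add_comm]

theorem aug_add (χ : ClassGroup (𝓞 (Kd d)) →* Multiplicative (ZMod 3))
    (C : ClassGroup (𝓞 (Kd d))) :
    aug d (chiLam χ C + chiLam χ C⁻¹) = if χ C = 1 then 0 else 1 := by
  have h2 : (1 : F4) + 1 = 0 := by ext <;> simp <;> decide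
  split_ifs with h
  · rw [chiLam_apply, chiLam_apply, map_inv χ, h, inv_one, map_one, map_add, map_mul, map_mul,
      map_one, aug_eHom, aug_eHom, one_mul, h2]
  · have hw : w4 + w4 * w4 = 1 := by linear_combination w4_rel - h2
    rcases add_eq_of_ne χ h with e | e <;>
      rw [e, map_add, map_mul, map_mul (aug d) (omg d * omg d), map_mul, aug_omg, aug_eHom,
        aug_eHom, mul_one, mul_one, hw]

/-- A prime of norm `l`, with `l` odd and prime to `d`, is not fixed by the conjugation. -/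
theorem map_cjA_ne {p : Quat.Params} {A : Type*} [CommRing A] [IsDedekindDomain A]
    [Module.Free ℤ A] (e : A ≃+* p.OK) {l : ℕ} (hl : l.Prime)
    (hl2 : l ≠ 2) (hld : ¬ l ∣ p.d) (P : {P : Ideal A // Ideal.absNorm P = l}) :
    P.1.map (Quat.cjA e : A →+* A) ≠ P.1 := by
  intro h
  obtain ⟨s, hs⟩ := Quat.exists_root_of_absNorm_prime e hl P.2
  have h1 : -Quat.deltaA e - (s : A) ∈ P.1 := by
    have h0 := Ideal.mem_map_of_mem (Quat.cjA e : A →+* A) hs
    rw [h, RingHom.coe_coe, map_sub, map_intCast, Quat.cjA_deltaA] at h0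
    exact h0
  have h2 : (((2 * s : ℤ)) : A) ∈ P.1 := by
    have := P.1.neg_mem (P.1.add_mem hs h1)
    push_cast
    convert this using 1
    ring
  have h3 : ((s * s + p.d : ℤ) : A) ∈ P.1 := by
    have h' := Quat.deltaA_sq e
    push_cast at h' ⊢
    have := P.1.mul_mem_left (-(s : A) - Quat.deltaA e) hs
    convert this using 1
    linear_combination h'
  have key : ∀ z : ℤ, (z : A) ∈ P.1 → (l : ℤ) ∣ z := fun z hz => by
    by_contra hz'
    obtain ⟨u, v, huv⟩ := (Nat.prime_iff_prime_int.mp hl).coprime_iff_not_dvd.mpr hz'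
    have hlP : ((l : ℤ) : A) ∈ P.1 := by
      have h6 := Ideal.absNorm_mem P.1
      rw [P.2] at h6
      rw [Int.cast_natCast]; exact h6
    have h4 := P.1.add_mem (P.1.mul_mem_left (u : A) hlP) (P.1.mul_mem_left (v : A) hz)
    rw [← Int.cast_mul, ← Int.cast_mul, ← Int.cast_add, huv, Int.cast_one] at h4
    have h5 := P.2
    rw [(Ideal.eq_top_iff_one P.1).mpr h4, Ideal.absNorm_top] at h5
    exact hl.one_lt.ne h5
  have hls : (l : ℤ) ∣ s := ((Nat.prime_iff_prime_int.mp hl).dvd_mul.mp (key _ h2)).resolve_left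
    fun h' => hl2 ((Nat.prime_dvd_prime_iff_eq hl Nat.prime_two).mp (Int.natCast_dvd_natCast.mp h'))
  exact hld (Int.natCast_dvd_natCast.mp ((dvd_add_right (hls.mul_left s)).mp (key _ h3)))

variable {r : GQ →* (M2 (ZMod 2))ˣ} {η : GQ → ZMod 2}

/-- **The homomorphism** from the Hecke ring to the group ring, congruent to the residual traces,
with the generation of the two part. -/
theorem ResInput.exists_pi (h : ResInput d r η) :
    ∃ Z : Set ℕ, Negligible Z ∧ ∀ p : Quat.Params, p.d = d → ∃ π : p.CuspHecke →+* Lam d,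
      (∀ l : ℕ, l.Prime → ¬ l ∣ p.level → l ∉ Z → ∀ B : ValuationSubring QBar, B.LiesOverPrime l →
        ∀ F : GQ, B.IsFrobeniusAt F l →
          IsNilpotent (π (p.tCusp l) - (((r F : M2 (ZMod 2)).trace.val : ℕ) : Lam d))) ∧
      {c : CTwo d | ∃ l : ℕ, l.Prime ∧ ¬ l ∣ p.level ∧ l ∉ Z ∧ π (p.tCusp l) =
        omg d * (eHom d c : Lam d) + omg d * omg d * (eHom d c⁻¹ : Lam d)}.Nonempty ∧
      Subgroup.closure {c : CTwo d | ∃ l : ℕ, l.Prime ∧ ¬ l ∣ p.level ∧ l ∉ Z ∧ π (p.tCusp l) =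
        omg d * (eHom d c : Lam d) + omg d * omg d * (eHom d c⁻¹ : Lam d)} = ⊤ := by
  classical
  obtain ⟨χ, hχ, Z₀, hZ₀, hiff⟩ :=
    exists_cubic h.mod_four h.psi h.unram h.level h.card_range
  refine ⟨Z₀ ∪ ({ℓ : ℕ | ℓ.Prime ∧ ¬ Good (Kd d) ℓ} ∪ {ℓ | ℓ ∣ 2 * d}),
    hZ₀.union (negligible_bad _ (by have := h.mod_four; omega)), fun p hd => ?_⟩
  subst hd
  let e : 𝓞 (Kd p.d) ≃+* p.OK := (quadData h.squarefree h.mod_four).ringEquiv
  let : ∀ l, Fintype {P : Ideal (𝓞 (Kd p.d)) // Ideal.absNorm P = l} := fun l =>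
    @Fintype.ofFinite _ (Ideal.finite_setOfPred_absNorm_eq l).to_subtype
  have hd2 : 2 ∣ p.d := by have := h.mod_four; omega
  set Z := Z₀ ∪ ({ℓ : ℕ | ℓ.Prime ∧ ¬ Good (Kd p.d) ℓ} ∪ {ℓ | ℓ ∣ 2 * p.d})
  -- the values at the primes of degree one
  have hval : ∀ P : PrimeId (Kd p.d), ∀ hl : (Ideal.absNorm P.1).Prime, Ideal.absNorm P.1 ∉ Z →
      Quat.chiSum (chiLam χ) hl.ne_zero = chiLam χ (cl P) + chiLam χ (cl P)⁻¹ := fun P hl hP =>
    Quat.chiSum_eq_of_split e (chiLam χ) hl ⟨P.1, rfl⟩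
      (map_cjA_ne e hl (fun h2 => hP (Or.inr (Or.inr (by rw [h2]; exact dvd_mul_right 2 _))))
        (fun hld => hP (Or.inr (Or.inr (dvd_mul_of_dvd_right hld 2)))) ⟨P.1, rfl⟩)
  have hZ' : Negligible (Z ∪ {ℓ | ℓ ∣ p.level}) :=
    (hZ₀.union (negligible_bad _ (by have := h.mod_four; omega))).union
      ((negligible_bad (d := p.d) p.level (by
        have hP : 0 < p.P := Finset.prod_pos fun q hq => (p.T_prime q hq).1.pos
        exact Nat.mul_ne_zero (by have := h.mod_four; omega) hP.ne')).mono Set.subset_union_right)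
  -- outside `Z` and the level the primes of degree one where `χ` is nontrivial generate; one exists
  have htop := closure_eq_top χ hχ hZ'
  obtain ⟨C₁, P₁, hl₁, hP₁, hC₁, hχ₁⟩ : {c : ClassGroup (𝓞 (Kd p.d)) | ∃ P : PrimeId (Kd p.d),
      (Ideal.absNorm P.1).Prime ∧ Ideal.absNorm P.1 ∉ Z ∪ {ℓ | ℓ ∣ p.level} ∧ cl P = c ∧
        χ (cl P) ≠ 1}.Nonempty := by
    refine Set.nonempty_iff_ne_empty.mpr fun hE => ?_
    rw [hE, Subgroup.closure_empty] at htop
    obtain ⟨g, hg⟩ := hχ (Multiplicative.ofAdd 1)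
    have : g ∈ (⊥ : Subgroup (ClassGroup (𝓞 (Kd p.d)))) := htop ▸ Subgroup.mem_top g
    rw [Subgroup.mem_bot.mp this, map_one] at hg
    exact absurd hg (by decide)
  -- `χ g - 1` for some `g` and the value at `P₁` are units, so `chiLam χ` gives a `π`
  obtain ⟨π, hπ⟩ := Quat.exists_cuspPi e (chiLam χ) hd2 (two_eq_zero _)
    (by
      obtain ⟨g, hg⟩ := hχ (Multiplicative.ofAdd 1)
      refine ⟨g, isUnit_of_aug _ ?_⟩
      rw [map_sub, map_one, chiLam_apply, map_mul, aug_eHom, mul_one, hg, omgHom_one', aug_omg]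
      intro h0
      exact absurd (congrArg QuadraticAlgebra.im h0) (by simp [w4, QuadraticAlgebra.im_one]))
    ⟨_, hl₁, fun h' => hP₁ (Or.inr h'), isUnit_of_aug _ (by
      rw [hval P₁ hl₁ fun h' => hP₁ (Or.inl h'), aug_add, if_neg hχ₁]
      exact one_ne_zero)⟩
  -- at a prime of degree one the residual trace is read off `χ`, at an inert one both sides are `0`
  refine ⟨π, fun l hl hlv hlZ B hB F hF => ?_, ?_⟩
  · rw [isNilpotent_iff, map_sub, map_natCast, hπ l hl hlv]
    have hgood : Good (Kd p.d) l := by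
      by_contra hg
      exact hlZ (Or.inr (Or.inl ⟨hl, hg⟩))
    by_cases hex : ∃ P : PrimeId (Kd p.d), Ideal.absNorm P.1 = l
    · obtain ⟨P, hP⟩ := hex
      rw [h.trace_frobenius hgood hP hl hB hF]
      subst hP
      rw [hval P hl hlZ, aug_add]
      by_cases hc : χ (cl P) = 1
      · rw [if_pos hc, if_pos ((hiff P hl fun h' => hlZ (Or.inl h')).mp hc), ZMod.val_zero,
          Nat.cast_zero, sub_self]
      · rw [if_neg hc, if_neg fun h' => hc ((hiff P hl fun h'' => hlZ (Or.inl h'')).mpr h'),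
          ZMod.val_one, Nat.cast_one, sub_self]
    · have : IsEmpty {P : Ideal (𝓞 (Kd p.d)) // Ideal.absNorm P = l} :=
        ⟨fun P => hex ⟨⟨P.1, Ideal.isPrime_of_irreducible_absNorm (by rw [P.2]; exact hl),
          fun h0 => hl.ne_zero (by rw [← P.2, h0, Ideal.absNorm_bot])⟩, P.2⟩⟩
      rw [h.trace_of_notMem fun hFK => hex (exists_prime_of_frobenius hl hgood hB hF hFK),
        ZMod.val_zero, Nat.cast_zero, sub_zero,
        show Quat.chiSum (chiLam χ) hl.ne_zero = 0 from Finset.sum_of_isEmpty _, map_zero]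
  -- the projections of the classes of these primes, or their inverses, are in the generating set
  set S := {c : CTwo p.d | ∃ l : ℕ, l.Prime ∧ ¬ l ∣ p.level ∧ l ∉ Z ∧ π (p.tCusp l) =
      omg p.d * (eHom p.d c : Lam p.d) + omg p.d * omg p.d * (eHom p.d c⁻¹ : Lam p.d)}
  have hmem : ∀ P : PrimeId (Kd p.d), (Ideal.absNorm P.1).Prime →
      Ideal.absNorm P.1 ∉ Z ∪ {ℓ | ℓ ∣ p.level} → χ (cl P) ≠ 1 →
      proj2 p.d (cl P) ∈ S ∨ (proj2 p.d (cl P))⁻¹ ∈ S := fun P hl hP hc => by
    have h1 := hπ _ hl fun h' => hP (Or.inr h')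
    rw [hval P hl fun h' => hP (Or.inl h')] at h1
    rcases add_eq_of_ne χ hc with e' | e'
    · exact Or.inl ⟨_, hl, fun h' => hP (Or.inr h'), fun h' => hP (Or.inl h'), h1.trans e'⟩
    · refine Or.inr ⟨_, hl, fun h' => hP (Or.inr h'), fun h' => hP (Or.inl h'), ?_⟩
      rw [h1, e', inv_inv]
  refine ⟨?_, ?_⟩
  · rcases hmem P₁ hl₁ hP₁ hχ₁ with h1 | h1 <;> exact ⟨_, h1⟩
  refine eq_top_iff.mpr fun c _ => ?_
  obtain ⟨C, rfl⟩ := proj2_surjective p.d c
  -- it suffices that the preimage of the closure contains the generators of the class group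
  refine (Subgroup.closure_le ((Subgroup.closure S).comap (proj2 p.d))).mpr ?_
    (htop ▸ Subgroup.mem_top C)
  rintro _ ⟨P, hl, hP, rfl, hc⟩
  rcases hmem P hl hP hc with h1 | h1
  exacts [Subgroup.subset_closure h1, inv_mem_iff.mp (Subgroup.subset_closure h1)]

/-- **The bound** on a representation unramified over `ℚ(√-d)` lifting the residual one by a two
group. -/
theorem ResInput.bound (h : ResInput d r η) {X : Type*} [Group X] [Finite X] (f : GQ →* X)
    (hlev : ∃ L : IntermediateField ℚ QBar, FiniteDimensional ℚ L ∧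
      ∀ g : GQ, (∀ x ∈ L, g x = x) → f g = 1)
    (hf : ∀ v : ℕ, ∀ [Fact v.Prime], ∀ g ∈ inG v, η g = 0 → f g = 1)
    (hcomm : ∀ g g', η g = 0 → η g' = 0 → Commute (f g) (f g'))
    (hker : ∀ g, η g = 0 → r g = 1 → ∃ j : ℕ, f (g ^ 2 ^ j) = 1) :
    Nat.card (f '' {g | η g = 0}) ≤ 3 * Fintype.card (CTwo d) := by
  classical
  let fK : (Kd d).fixingSubgroup →* X := f.comp (Subgroup.subtype _)
  let : CommGroup fK.range :=
    { (inferInstance : Group fK.range) with
      mul_comm := fun a b => Subtype.ext (by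
        obtain ⟨σ, hσ⟩ := a.2
        obtain ⟨τ, hτ⟩ := b.2
        show a.1 * b.1 = b.1 * a.1
        rw [← hσ, ← hτ]
        exact hcomm _ _ ((h.kernel _).mpr σ.2) ((h.kernel _).mpr τ.2)) }
  have himg : f '' {g | η g = 0} = (fK.range : Set X) := by
    ext x
    constructor
    · rintro ⟨g, hg, rfl⟩
      exact ⟨⟨g, (h.kernel g).mp hg⟩, rfl⟩
    · rintro ⟨σ, rfl⟩
      exact ⟨σ.1, (h.kernel _).mpr σ.2, rfl⟩
  rw [Nat.card_congr (Equiv.setCongr himg)]
  -- the cubes are an unramified character of two power order; the kernel of cubing has order `≤ 3`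
  set cube : fK.range →* fK.range := powMonoidHom 3
  let ψ : (Kd d).fixingSubgroup →* fK.range := cube.comp fK.rangeRestrict
  have hrange : ψ.range = cube.range := by
    ext y
    constructor
    · rintro ⟨σ, rfl⟩
      exact ⟨_, rfl⟩
    · rintro ⟨z, rfl⟩
      obtain ⟨σ, rfl⟩ := fK.rangeRestrict_surjective z
      exact ⟨σ, rfl⟩
  have hψ : ∀ σ : (Kd d).fixingSubgroup, f σ = 1 → ψ σ = 1 := fun σ hσ => by
    show cube (fK.rangeRestrict σ) = 1
    rw [show fK.rangeRestrict σ = 1 from Subtype.ext hσ, map_one]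
  have hunr : Unram (Kd d) ψ := fun _ hq _ hB σ hσ =>
    hψ σ (eq_one_of_inertia h.kernel hf hq hB hσ σ.2)
  have hlevψ : Level (Kd d) ψ := by
    obtain ⟨L, hL, h1⟩ := hlev
    exact ⟨L, hL, fun σ hσ => hψ σ (h1 _ hσ)⟩
  have : Fact (Nat.Prime 2) := ⟨Nat.prime_two⟩
  have hp : IsPGroup 2 ψ.range := by
    rintro ⟨_, σ, rfl⟩
    have hr : r ((σ : GQ) ^ 3) = 1 := by
      rw [map_pow]
      exact Units.ext ((Units.val_pow_eq_pow_val _ 3).trans
        (pow_three_of_comm _ (h.comm ((h.kernel _).mpr σ.2)) (Units.ne_zero _)))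
    obtain ⟨j, hj⟩ := hker _ ((h.kernel _).mpr (pow_mem σ.2 3)) hr
    refine ⟨j, Subtype.ext ?_⟩
    show (cube (fK.rangeRestrict σ)) ^ 2 ^ j = 1
    refine Subtype.ext ?_
    show (f σ ^ 3) ^ 2 ^ j = 1
    rw [← map_pow, ← map_pow, hj]
  obtain ⟨k, hk⟩ := IsPGroup.iff_card.mp hp
  have h1 := (card_range_le h.squarefree h.mod_four ψ hunr hlevψ hk).trans (card_two_primary_le d)
  rw [hrange] at h1
  -- an element of the kernel is determined by its image under `psi`
  have h2 : Nat.card cube.ker ≤ 3 := by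
    choose g hg using fun x : cube.ker => (x.1.2 : ∃ σ, fK σ = (x.1 : X))
    refine (Nat.card_le_card_of_injective (fun x => h.psi (g x)) fun x y hxy => ?_).trans
      (Nat.card_eq_fintype_card.trans_le le_rfl)
    have hr : h.psi ((g x)⁻¹ * g y) = 1 := by
      simp only at hxy
      rw [map_mul, map_inv, hxy, inv_mul_cancel]
    rw [h.psi_eq_one_iff] at hr
    obtain ⟨j, hj⟩ := hker _ ((h.kernel _).mpr ((g x)⁻¹ * g y).2) hr
    have hz : (x⁻¹ * y) ^ 2 ^ j = 1 := by
      refine Subtype.ext (Subtype.ext ?_)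
      show ((x.1.1)⁻¹ * y.1.1) ^ 2 ^ j = 1
      rw [← hg x, ← hg y, ← map_inv fK, ← map_mul fK]
      show f (((g x)⁻¹ * g y : (Kd d).fixingSubgroup) : GQ) ^ 2 ^ j = 1
      rw [← map_pow, hj]
    have hz3 : (x⁻¹ * y) ^ 3 = 1 := Subtype.ext (x⁻¹ * y).2
    have hcop : Nat.Coprime (2 ^ j) 3 := Nat.Coprime.pow_left _ (by norm_num)
    have := pow_gcd_eq_one.mpr ⟨hz, hz3⟩
    rw [hcop, pow_one, inv_mul_eq_one] at this
    exact this
  calc Nat.card (fK.range : Set X) = Nat.card cube.ker * Nat.card cube.range := by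
        rw [← Subgroup.index_ker cube, Subgroup.card_mul_index]; rfl
    _ ≤ 3 * Fintype.card (CTwo d) := Nat.mul_le_mul h2 h1

end Fermat.Agent.LT.Glue
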