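import Fermat.Agent.LT.ClassBound.Quadratic
import Mathlib.Algebra.QuadraticAlgebra.Basic
import Mathlib.Algebra.MonoidAlgebra.Basic

/-!
# The local ring of the two part of the class group over the field with four elements
-/

set_option autoImplicit false

noncomputable section

namespace Fermat.Agent.LT.Glue

open NumberField Fermat.Agent.LT.ClassBound

/-- The field with four elements. -/
abbrev F4 : Type := QuadraticAlgebra (ZMod 2) 1 1

/-- A primitive cube root of unity. -/
def w4 : F4 := QuadraticAlgebra.omega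

theorem w4_rel : w4 * w4 + w4 + 1 = 0 := by
  ext <;> simp [w4] <;> decide

instance finite_F4 : Finite F4 := Finite.of_equiv _ (QuadraticAlgebra.equivProd (1 : ZMod 2) 1).symm

theorem pow_three_F4 (x : F4) : x = 0 ∨ x * x * x = 1 := by
  obtain ⟨a, b⟩ := x
  fin_cases a <;> fin_cases b <;>
    first
      | exact Or.inl (QuadraticAlgebra.ext rfl rfl)
      | exact Or.inr (QuadraticAlgebra.ext (by simp; decide) (by simp; decide))

theorem isUnit_F4 {x : F4} (h : x ≠ 0) : IsUnit x :=
  IsUnit.of_mul_eq_one (x * x) (by rw [← mul_assoc]; exact (pow_three_F4 x).resolve_left h)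

theorem eq_zero_of_isNilpotent_F4 {x : F4} (h : IsNilpotent x) : x = 0 := by
  by_contra hx
  have : Nontrivial F4 := ⟨⟨x, 0, hx⟩⟩
  exact (isUnit_F4 hx).not_isNilpotent h

variable (d : ℕ)

/-- The odd part of the class number. -/
def oddPart : ℕ := ordCompl[2] (Nat.card (ClassGroup (𝓞 (Kd d))))

/-- The exponent of two in the class number. -/
def expTwo : ℕ := (Nat.card (ClassGroup (𝓞 (Kd d)))).factorization 2

theorem pow_expTwo_mul_oddPart :
    2 ^ expTwo d * oddPart d = Nat.card (ClassGroup (𝓞 (Kd d))) :=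
  Nat.ordProj_mul_ordCompl_eq_self _ 2

theorem odd_oddPart : Odd (oddPart d) :=
  Nat.odd_iff.mpr (Nat.two_dvd_ne_zero.mp
    (Nat.not_dvd_ordCompl Nat.prime_two Nat.card_pos.ne'))

/-- The two part of the class group. -/
abbrev CTwo : Type :=
  ↥(powMonoidHom (α := ClassGroup (𝓞 (Kd d))) (oddPart d)).range

instance fintypeCTwo : Fintype (CTwo d) := Fintype.ofFinite _

/-- The projection on the two part. -/
def proj2 : ClassGroup (𝓞 (Kd d)) →* CTwo d :=
  (powMonoidHom (α := ClassGroup (𝓞 (Kd d))) (oddPart d)).rangeRestrict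

theorem proj2_surjective : Function.Surjective (proj2 d) :=
  MonoidHom.rangeRestrict_surjective _

theorem pow_two_pow_eq_one (c : CTwo d) : c ^ 2 ^ expTwo d = 1 := by
  obtain ⟨x, rfl⟩ := proj2_surjective d c
  refine Subtype.ext ?_
  show ((x ^ oddPart d) ^ 2 ^ expTwo d) = 1
  rw [← pow_mul, mul_comm, pow_expTwo_mul_oddPart, pow_card_eq_one']

theorem isPGroup_CTwo : IsPGroup 2 (CTwo d) := fun c => ⟨expTwo d, pow_two_pow_eq_one d c⟩

/-- The two part of the class group has two power order. -/
theorem exists_card_CTwo : ∃ k, Fintype.card (CTwo d) = 2 ^ k := by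
  have : Fact (Nat.Prime 2) := ⟨Nat.prime_two⟩
  obtain ⟨k, hk⟩ := IsPGroup.iff_card.mp (isPGroup_CTwo d)
  exact ⟨k, by rw [← Nat.card_eq_fintype_card, hk]⟩

theorem card_two_primary_le :
    Nat.card {c : ClassGroup (𝓞 (Kd d)) // ∃ k : ℕ, c ^ 2 ^ k = 1} ≤ Fintype.card (CTwo d) := by
  have hmem : ∀ c : ClassGroup (𝓞 (Kd d)), (∃ k : ℕ, c ^ 2 ^ k = 1) →
      c ∈ (powMonoidHom (α := ClassGroup (𝓞 (Kd d))) (oddPart d)).range := by
    rintro c ⟨j, hj⟩
    obtain ⟨u, v, h⟩ : IsCoprime (oddPart d : ℤ) ((2 : ℤ) ^ j) := by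
      refine IsCoprime.pow_right (Int.isCoprime_iff_nat_coprime.mpr ?_)
      simpa using (odd_oddPart d).coprime_two_right
    refine ⟨c ^ u, ?_⟩
    show (c ^ u) ^ oddPart d = c
    rw [← zpow_natCast, ← zpow_mul]
    have h1 : c ^ (v * (2 : ℤ) ^ j) = 1 := by
      rw [mul_comm v, zpow_mul, show ((2 : ℤ) ^ j) = ((2 ^ j : ℕ) : ℤ) by push_cast; ring,
        zpow_natCast, hj, one_zpow]
    calc c ^ (u * (oddPart d : ℤ)) = c ^ (u * (oddPart d : ℤ)) * c ^ (v * (2 : ℤ) ^ j) := by
          rw [h1, mul_one]
      _ = c := by rw [← zpow_add, h, zpow_one]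
  rw [← Nat.card_eq_fintype_card]
  exact Nat.card_le_card_of_injective
    (fun c => (⟨c.1, hmem c.1 c.2⟩ : CTwo d)) fun a b h => Subtype.ext (congrArg Subtype.val h :)

/-- The group ring over the field with four elements. -/
abbrev Lam : Type := MonoidAlgebra F4 (CTwo d)

/-- The cube root of unity in the group ring. -/
def omg : Lam d := algebraMap F4 (Lam d) w4

/-- The cube root of unity in the group ring satisfies its equation. -/
theorem omg_rel : omg d * omg d + omg d + 1 = 0 := by
  have h := congrArg (algebraMap F4 (Lam d)) w4_rel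
  rw [map_add, map_add, map_mul, map_one, map_zero] at h
  exact h

/-- The group elements as units. -/
def eHom : CTwo d →* (Lam d)ˣ := (MonoidAlgebra.of F4 (CTwo d)).toHomUnits

theorem eHom_apply (c : CTwo d) : (eHom d c : Lam d) = MonoidAlgebra.single c 1 := rfl

/-- The augmentation. -/
def aug : Lam d →+* F4 := (MonoidAlgebra.lift F4 F4 (CTwo d) 1).toRingHom

theorem aug_single (c : CTwo d) (r : F4) : aug d (MonoidAlgebra.single c r) = r := by
  show MonoidAlgebra.lift F4 F4 (CTwo d) 1 (MonoidAlgebra.single c r) = r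
  simp

theorem aug_eHom (c : CTwo d) : aug d (eHom d c : Lam d) = 1 := by rw [eHom_apply, aug_single]

theorem aug_algebraMap (r : F4) : aug d (algebraMap F4 (Lam d) r) = r :=
  AlgHom.commutes (MonoidAlgebra.lift F4 F4 (CTwo d) 1) r

theorem aug_omg : aug d (omg d) = w4 := aug_algebraMap d w4

theorem two_eq_zero : (2 : Lam d) = 0 := by
  rw [← map_ofNat (algebraMap (ZMod 2) (Lam d)) 2, show (2 : ZMod 2) = 0 from rfl, map_zero]

theorem sub_one_pow_two_pow (x : Lam d) : ∀ k, (x - 1) ^ 2 ^ k = x ^ 2 ^ k - 1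
  | 0 => by simp
  | k + 1 => by
    rw [pow_succ 2 k, pow_mul, sub_one_pow_two_pow x k, pow_mul]
    linear_combination (1 - x ^ 2 ^ k) * two_eq_zero d

/-- A group element minus one is nilpotent in the group ring. -/
theorem unipotent (c : CTwo d) : IsNilpotent ((eHom d c : Lam d) - 1) :=
  ⟨2 ^ expTwo d, by
    rw [sub_one_pow_two_pow, ← Units.val_pow_eq_pow_val, ← map_pow, pow_two_pow_eq_one, map_one,
      Units.val_one, sub_self]⟩

theorem isNilpotent_sub_aug (x : Lam d) : IsNilpotent (x - algebraMap F4 (Lam d) (aug d x)) := by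
  induction x using MonoidAlgebra.induction_linear with
  | zero => simp
  | add f g hf hg =>
    rw [map_add, map_add, add_sub_add_comm]
    exact (Commute.all _ _).isNilpotent_add hf hg
  | single c r =>
    rw [aug_single, show MonoidAlgebra.single c r =
      algebraMap F4 (Lam d) r * (eHom d c : Lam d) by
        rw [eHom_apply, ← Algebra.smul_def, MonoidAlgebra.smul_single, smul_eq_mul, mul_one],
      show algebraMap F4 (Lam d) r * (eHom d c : Lam d) - algebraMap F4 (Lam d) r =
        algebraMap F4 (Lam d) r * ((eHom d c : Lam d) - 1) by ring]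
    exact (Commute.all _ _).isNilpotent_mul_left (unipotent d c)

theorem isNilpotent_iff (x : Lam d) : IsNilpotent x ↔ aug d x = 0 := by
  refine ⟨fun h => eq_zero_of_isNilpotent_F4 (h.map (aug d)), fun h => ?_⟩
  have := isNilpotent_sub_aug d x
  rwa [h, map_zero, sub_zero] at this

theorem isUnit_of_aug {x : Lam d} (h : aug d x ≠ 0) : IsUnit x := by
  have e : x = algebraMap F4 (Lam d) (aug d x) + (x - algebraMap F4 (Lam d) (aug d x)) := by ring
  rw [e]
  exact (isNilpotent_sub_aug d x).isUnit_add_left_of_commute ((isUnit_F4 h).map _) (Commute.all _ _)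

/-- The group ring over `𝔽₄` is nonzero. -/
instance nontrivial_Lam : Nontrivial (Lam d) :=
  ⟨⟨0, 1, fun h => by
    have := congrArg (aug d) h
    rw [map_zero, map_one] at this
    exact zero_ne_one this⟩⟩

/-- The group ring over `𝔽₄` is local: an element is a unit off the augmentation ideal. -/
instance isLocalRing_Lam : IsLocalRing (Lam d) := by
  refine IsLocalRing.of_isUnit_or_isUnit_one_sub_self fun x => ?_
  by_cases h : aug d x = 0
  · refine Or.inr (isUnit_of_aug d ?_)
    rw [map_sub, map_one, h, sub_zero]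
    exact one_ne_zero
  · exact Or.inl (isUnit_of_aug d h)

/-- The coefficients. -/
def coeffEquiv : Lam d ≃ (CTwo d → F4) := MonoidAlgebra.coeffEquiv.trans Finsupp.equivFunOnFinite

/-- The group ring over `𝔽₄` is finite. -/
instance finite_Lam : Finite (Lam d) := Finite.of_equiv _ (coeffEquiv d).symm

/-- The group elements and their multiples by the cube root of unity are independent over `𝔽₂`. -/
theorem indep (a b : CTwo d → ZMod 2)
    (h : ∑ c, a c • (eHom d c : Lam d) + omg d * ∑ c, b c • (eHom d c : Lam d) = 0) :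
    a = 0 ∧ b = 0 := by
  classical
  have key : ∀ c, a c • (1 : F4) + w4 * b c • (1 : F4) = 0 := fun c => by
    have h' := congrArg (fun f : Lam d => (MonoidAlgebra.coeff f) c) h
    simp only [omg, ← Algebra.smul_def, Finset.smul_sum, eHom_apply, MonoidAlgebra.smul_single,
      MonoidAlgebra.coeff_add, MonoidAlgebra.coeff_sum, MonoidAlgebra.coeff_single,
      MonoidAlgebra.coeff_zero, Finsupp.add_apply, Finsupp.finsetSum_apply, Finsupp.single_apply,
      Finset.sum_ite_eq', Finset.mem_univ, if_true, Finsupp.zero_apply, smul_eq_mul] at h'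
    exact h'
  constructor <;> funext c
  · have := congrArg QuadraticAlgebra.re (key c)
    simpa [w4, QuadraticAlgebra.re_one, QuadraticAlgebra.im_one] using this
  · have := congrArg QuadraticAlgebra.im (key c)
    simpa [w4, QuadraticAlgebra.re_one, QuadraticAlgebra.im_one] using this

end Fermat.Agent.LT.Glue
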